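import Mathlib
import Fermat.Prelude.Def_EllipticCurve_FrobeniusTrace
import Fermat.Prelude.Def_FLTPrelim_Ramification

set_option autoImplicit false

open scoped Pointwise

noncomputable section

namespace Fermat.Agent.S54.FrobExists

theorem algebraRat_eq_instAlgebra :
    (DivisionRing.toRatAlgebra : Algebra ℚ (AlgebraicClosure ℚ)) = AlgebraicClosure.instAlgebra ℚ :=
  Subsingleton.elim _ _

theorem isAlgClosure_rat_qbar : IsAlgClosure ℚ (AlgebraicClosure ℚ) := by
  rw [algebraRat_eq_instAlgebra]; infer_instance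

attribute [local instance] isAlgClosure_rat_qbar

/-- The ring of all algebraic integers. -/
abbrev Zbar : Subalgebra ℤ (AlgebraicClosure ℚ) := integralClosure ℤ (AlgebraicClosure ℚ)

/-- The absolute Galois group of `ℚ`. -/
abbrev GalQ : Type := AlgebraicClosure ℚ ≃ₐ[ℚ] AlgebraicClosure ℚ

/-- Galois invariants in the ring of algebraic integers are the integers. -/
theorem isInvariant_int_zbar : Algebra.IsInvariant ℤ Zbar GalQ := by
  refine ⟨fun b hb => ?_⟩
  have hfix : ∀ σ : GalQ, σ (b : AlgebraicClosure ℚ) = b := by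
    intro σ
    have := congrArg (fun x : Zbar => (x : AlgebraicClosure ℚ)) (hb σ)
    simpa using this
  obtain ⟨q, hq⟩ := (InfiniteGalois.mem_range_algebraMap_iff_fixed (k := ℚ)
    (K := AlgebraicClosure ℚ) _).mpr hfix
  have hint : IsIntegral ℤ q := by
    have : IsIntegral ℤ (algebraMap ℚ (AlgebraicClosure ℚ) q) := hq ▸ b.2
    exact (isIntegral_algebraMap_iff (algebraMap ℚ (AlgebraicClosure ℚ)).injective).mp this
  obtain ⟨n, hn⟩ := IsIntegrallyClosed.isIntegral_iff.mp hint
  refine ⟨n, Subtype.ext ?_⟩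
  rw [← hq, ← hn]
  simp

theorem continuousSMul_zbar :
    letI : TopologicalSpace Zbar := ⊥
    ContinuousSMul GalQ Zbar := by
  let _ : TopologicalSpace Zbar := ⊥
  have : DiscreteTopology Zbar := ⟨rfl⟩
  rw [continuousSMul_iff_stabilizer_isOpen]
  intro b
  convert stabilizer_isOpen_of_isIntegral (K := ℚ) (L := AlgebraicClosure ℚ)
    (b : AlgebraicClosure ℚ) using 2
  ext σ
  simp [MulAction.mem_stabilizer_iff, Subtype.ext_iff]

/-- Existence of a prime of the ring of algebraic integers above `ℓ` together with a Frobenius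
element of the absolute Galois group at that prime. -/
theorem exists_frob_zbar (ℓ : ℕ) (hℓ : ℓ.Prime) :
    ∃ (Q : Ideal Zbar) (σ : GalQ), Q.IsPrime ∧
      (∀ n : ℤ, algebraMap ℤ Zbar n ∈ Q ↔ (ℓ : ℤ) ∣ n) ∧
      (∀ b : Zbar, σ • b ∈ Q ↔ b ∈ Q) ∧ ∀ b : Zbar, σ • b - b ^ ℓ ∈ Q := by
  have hℓ' : Prime (ℓ : ℤ) := Nat.prime_iff_prime_int.mp hℓ
  let P : Ideal ℤ := Ideal.span {(ℓ : ℤ)}
  have hP : P.IsPrime := (Ideal.span_singleton_prime hℓ'.ne_zero).mpr hℓ'
  obtain ⟨Q, -, hQ, hQP⟩ := Ideal.exists_ideal_over_prime_of_isIntegral P (⊥ : Ideal Zbar)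
    (by simp [Ideal.comap_bot_of_injective _ (FaithfulSMul.algebraMap_injective ℤ Zbar)])
  have hlies : Q.LiesOver P := ⟨hQP.symm⟩
  have hmem : ∀ n : ℤ, algebraMap ℤ Zbar n ∈ Q ↔ (ℓ : ℤ) ∣ n := by
    intro n
    rw [← Ideal.mem_comap, hQP, Ideal.mem_span_singleton]
  -- characteristic
  have hℓQ : ((ℓ : ℕ) : Zbar ⧸ Q) = 0 := by
    have : algebraMap ℤ Zbar (ℓ : ℤ) ∈ Q := (hmem _).mpr dvd_rfl
    have h2 := Ideal.Quotient.eq_zero_iff_mem.mpr this
    simpa using h2
  have : Fact ℓ.Prime := ⟨hℓ⟩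
  have : CharP (Zbar ⧸ Q) ℓ := (CharP.charP_iff_prime_eq_zero hℓ).mpr hℓQ
  -- Frobenius on the residue ring
  let frobHom : (Zbar ⧸ Q) →ₐ[ℤ ⧸ P] (Zbar ⧸ Q) :=
    { frobenius (Zbar ⧸ Q) ℓ with
      commutes' := by
        intro r
        obtain ⟨n, rfl⟩ := Ideal.Quotient.mk_surjective r
        have : algebraMap (ℤ ⧸ P) (Zbar ⧸ Q) (Ideal.Quotient.mk P n) = ((n : ℤ) : Zbar ⧸ Q) := by
          rw [Ideal.Quotient.algebraMap_mk_of_liesOver]
          simp
        simp only [RingHom.toMonoidHom_eq_coe, OneHom.toFun_eq_coe, MonoidHom.toOneHom_coe,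
          MonoidHom.coe_coe]
        rw [this, map_intCast] }
  have hfrob_apply : ∀ x, frobHom x = x ^ ℓ := fun x => rfl
  have hinj : Function.Injective frobHom := by
    intro x y hxy
    exact frobenius_inj (Zbar ⧸ Q) ℓ hxy
  have hsurj : Function.Surjective frobHom := by
    intro x
    obtain ⟨b, rfl⟩ := Ideal.Quotient.mk_surjective x
    obtain ⟨c, hc⟩ := IsAlgClosed.exists_pow_nat_eq (b : AlgebraicClosure ℚ) hℓ.pos
    have hcint : IsIntegral ℤ c := IsIntegral.of_pow hℓ.pos (hc ▸ b.2)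
    refine ⟨Ideal.Quotient.mk Q ⟨c, hcint⟩, ?_⟩
    rw [hfrob_apply, ← map_pow]
    congr 1
    exact Subtype.ext hc
  let frobEquiv : (Zbar ⧸ Q) ≃ₐ[ℤ ⧸ P] (Zbar ⧸ Q) := AlgEquiv.ofBijective frobHom ⟨hinj, hsurj⟩
  -- lift to the Galois group
  let _ : TopologicalSpace Zbar := ⊥
  have : DiscreteTopology Zbar := ⟨rfl⟩
  have : ContinuousSMul GalQ Zbar := continuousSMul_zbar
  have : Algebra.IsInvariant ℤ Zbar GalQ := isInvariant_int_zbar
  obtain ⟨⟨σ, hσ⟩, hσ'⟩ := Ideal.Quotient.stabilizerHom_surjective_of_profinite (G := GalQ) P Q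
    frobEquiv
  refine ⟨Q, σ, hQ, hmem, ?_, ?_⟩
  · intro b
    rw [MulAction.mem_stabilizer_iff] at hσ
    conv_lhs => rw [← hσ]
    exact Ideal.smul_mem_pointwise_smul_iff
  · intro b
    have h1 := congrArg (fun f => f (Ideal.Quotient.mk Q b)) hσ'
    simp only [Ideal.Quotient.stabilizerHom_apply] at h1
    rw [← Ideal.Quotient.eq, map_pow]
    exact h1

/-- Membership in the localization of the ring of algebraic integers at `Q`, as a subset of
the field of algebraic numbers. -/
def InLoc (Q : Ideal Zbar) (x : AlgebraicClosure ℚ) : Prop :=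
  ∃ b s : Zbar, s ∉ Q ∧ x * (s : AlgebraicClosure ℚ) = (b : AlgebraicClosure ℚ)

theorem inLoc_or_inv_of_poly (Q : Ideal Zbar) [Q.IsPrime] :
    ∀ (n : ℕ) (p : Polynomial Zbar), p.natDegree ≤ n → ∀ u : AlgebraicClosure ℚ,
      Polynomial.aeval u p = 0 → (∃ i, p.coeff i ∉ Q) → InLoc Q u ∨ InLoc Q u⁻¹ := by
  intro n
  induction n with
  | zero =>
    intro p hp u hu hex
    exfalso
    obtain ⟨i, hi⟩ := hex
    rw [Polynomial.eq_C_of_natDegree_le_zero hp] at hu hi
    rw [Polynomial.aeval_C] at hu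
    have h0 : p.coeff 0 = 0 := by
      apply Subtype.ext
      simpa using hu
    rw [h0] at hi
    simp at hi
  | succ n ih =>
    intro p hp u hu hex
    by_cases hdeg : p.natDegree ≤ n
    · exact ih p hdeg u hu hex
    have hdeg' : p.natDegree = n + 1 := by omega
    have hint : IsIntegral Zbar (p.leadingCoeff • u) := isIntegral_leadingCoeff_smul p u hu
    have hint' : IsIntegral ℤ (p.leadingCoeff • u) := isIntegral_trans _ hint
    let b : Zbar := ⟨p.leadingCoeff • u, hint'⟩
    have hb : (b : AlgebraicClosure ℚ) = (p.leadingCoeff : AlgebraicClosure ℚ) * u := rfl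
    let q : Polynomial Zbar := p.eraseLead + Polynomial.C b * Polynomial.X ^ n
    have hq_deg : q.natDegree ≤ n := by
      refine (Polynomial.natDegree_add_le _ _).trans (max_le ?_ ?_)
      · have := Polynomial.eraseLead_natDegree_le p
        omega
      · exact Polynomial.natDegree_C_mul_X_pow_le _ _
    have hq_eval : Polynomial.aeval u q = 0 := by
      have hp' : Polynomial.aeval u (p.eraseLead +
          Polynomial.C p.leadingCoeff * Polynomial.X ^ p.natDegree) = 0 := by
        rw [Polynomial.eraseLead_add_C_mul_X_pow]; exact hu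
      simp only [q, map_add, map_mul, Polynomial.aeval_C, map_pow, Polynomial.aeval_X]
      simp only [map_add, map_mul, Polynomial.aeval_C, map_pow, Polynomial.aeval_X, hdeg'] at hp'
      rw [← hp']
      congr 1
      change (b : AlgebraicClosure ℚ) * u ^ n = (p.leadingCoeff : AlgebraicClosure ℚ) * u ^ (n + 1)
      rw [hb]; ring
    by_cases hq : ∃ i, q.coeff i ∉ Q
    · exact ih q hq_deg u hq_eval hq
    simp only [not_exists, not_not] at hq
    have hq_coeff : ∀ i, q.coeff i =
        (if i = n + 1 then 0 else p.coeff i) + (if i = n then b else 0) := by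
      intro i
      simp only [q, Polynomial.coeff_add, Polynomial.eraseLead_coeff, hdeg',
        Polynomial.coeff_C_mul_X_pow]
    by_cases hlead : p.leadingCoeff ∈ Q
    · right
      obtain ⟨i, hi⟩ := hex
      have hin : i = n := by
        by_contra hne
        have h1 := hq i
        rw [hq_coeff i] at h1
        by_cases hi1 : i = n + 1
        · apply hi
          rw [hi1, ← hdeg']
          exact hlead
        · simp only [hi1, hne, if_false, add_zero] at h1
          exact hi h1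
      have hbQ : b ∉ Q := by
        intro hbQ
        have h1 := hq n
        rw [hq_coeff n] at h1
        simp only [Nat.left_eq_add, one_ne_zero, if_false, if_true] at h1
        apply hi
        rw [hin]
        have := Q.sub_mem h1 hbQ
        simpa using this
      have hu0 : u ≠ 0 := by
        rintro rfl
        apply hbQ
        have : b = 0 := Subtype.ext (by rw [hb]; simp)
        rw [this]; exact Q.zero_mem
      refine ⟨p.leadingCoeff, b, hbQ, ?_⟩
      rw [hb]
      field_simp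
    · left
      exact ⟨b, p.leadingCoeff, hlead, by rw [hb, mul_comm]⟩

theorem isAlgebraic_int_qbar (u : AlgebraicClosure ℚ) : IsAlgebraic ℤ u := by
  have h1 : IsAlgebraic ℚ u := Algebra.IsAlgebraic.isAlgebraic u
  exact (IsFractionRing.isAlgebraic_iff ℤ ℚ (AlgebraicClosure ℚ)).mpr h1

theorem inLoc_or_inv (Q : Ideal Zbar) [Q.IsPrime] (ℓ : ℕ) (hℓ : ℓ.Prime)
    (hQ : ∀ n : ℤ, algebraMap ℤ Zbar n ∈ Q ↔ (ℓ : ℤ) ∣ n) (u : AlgebraicClosure ℚ) :
    InLoc Q u ∨ InLoc Q u⁻¹ := by
  obtain ⟨p0, hp0, hp0u⟩ := isAlgebraic_int_qbar u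
  have hprim : p0.primPart.IsPrimitive := Polynomial.isPrimitive_primPart p0
  have heval : Polynomial.aeval u p0.primPart = 0 := Polynomial.aeval_primPart_eq_zero hp0 hp0u
  let p : Polynomial Zbar := p0.primPart.map (algebraMap ℤ Zbar)
  have hpu : Polynomial.aeval u p = 0 := by
    simp only [p]
    rw [Polynomial.aeval_map_algebraMap]
    exact heval
  refine inLoc_or_inv_of_poly Q p.natDegree p le_rfl u hpu ?_
  by_contra hall
  simp only [not_exists, not_not] at hall
  have hdvd : Polynomial.C (ℓ : ℤ) ∣ p0.primPart := by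
    rw [Polynomial.C_dvd_iff_dvd_coeff]
    intro i
    have := hall i
    simp only [p, Polynomial.coeff_map] at this
    exact (hQ _).mp this
  have hunit : IsUnit (ℓ : ℤ) := hprim _ hdvd
  exact (Nat.prime_iff_prime_int.mp hℓ).not_isUnit hunit

/-- The localization of the ring of algebraic integers at a prime, as a valuation subring. -/
def locValuationSubring (Q : Ideal Zbar) [Q.IsPrime]
    (h : ∀ u : AlgebraicClosure ℚ, InLoc Q u ∨ InLoc Q u⁻¹) :
    ValuationSubring (AlgebraicClosure ℚ) where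
  carrier := {x | InLoc Q x}
  mul_mem' := by
    rintro x y ⟨b, s, hs, hx⟩ ⟨b', s', hs', hy⟩
    refine ⟨b * b', s * s', fun hmem => ?_, ?_⟩
    · rcases Ideal.IsPrime.mem_or_mem inferInstance hmem with h1 | h1
      · exact hs h1
      · exact hs' h1
    · push_cast
      rw [← hx, ← hy]; ring
  one_mem' := ⟨1, 1, fun h1 => (Ideal.IsPrime.ne_top inferInstance)
    ((Ideal.eq_top_iff_one Q).mpr h1), by simp⟩
  add_mem' := by
    rintro x y ⟨b, s, hs, hx⟩ ⟨b', s', hs', hy⟩
    refine ⟨b * s' + b' * s, s * s', fun hmem => ?_, ?_⟩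
    · rcases Ideal.IsPrime.mem_or_mem inferInstance hmem with h1 | h1
      · exact hs h1
      · exact hs' h1
    · push_cast
      rw [← hx, ← hy]; ring
  zero_mem' := ⟨0, 1, fun h1 => (Ideal.IsPrime.ne_top inferInstance)
    ((Ideal.eq_top_iff_one Q).mpr h1), by simp⟩
  neg_mem' := by
    rintro x ⟨b, s, hs, hx⟩
    exact ⟨-b, s, hs, by push_cast; rw [← hx]; ring⟩
  mem_or_inv_mem' := h

/-- An element of the localization which, multiplied by something outside `Q`, lands in `Q`
lies in the maximal ideal. -/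
theorem mem_maximalIdeal_locValuationSubring (Q : Ideal Zbar) [Q.IsPrime]
    (h : ∀ u : AlgebraicClosure ℚ, InLoc Q u ∨ InLoc Q u⁻¹)
    (y : locValuationSubring Q h) (t c : Zbar) (ht : t ∉ Q) (hc : c ∈ Q)
    (hy : (y : AlgebraicClosure ℚ) * (t : AlgebraicClosure ℚ) = (c : AlgebraicClosure ℚ)) :
    y ∈ IsLocalRing.maximalIdeal (locValuationSubring Q h) := by
  rw [IsLocalRing.mem_maximalIdeal, mem_nonunits_iff]
  intro hunit
  obtain ⟨z, hz⟩ := hunit.exists_right_inv
  obtain ⟨b', s', hs', hz'⟩ := z.2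
  have hz1 : (y : AlgebraicClosure ℚ) * (z : AlgebraicClosure ℚ) = 1 := by
    have := congrArg (fun w : locValuationSubring Q h => (w : AlgebraicClosure ℚ)) hz
    simpa using this
  have key : s' * t = c * b' := by
    apply Subtype.ext
    push_cast
    calc (s' : AlgebraicClosure ℚ) * t
        = ((y : AlgebraicClosure ℚ) * z) * s' * t := by rw [hz1, one_mul]
      _ = ((y : AlgebraicClosure ℚ) * t) * ((z : AlgebraicClosure ℚ) * s') := by ring
      _ = c * b' := by rw [hy, hz']
  have : s' * t ∈ Q := by rw [key]; exact Q.mul_mem_right _ hc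
  rcases Ideal.IsPrime.mem_or_mem inferInstance this with h1 | h1
  · exact hs' h1
  · exact ht h1

/-- **Existence of Frobenius elements**: for every prime `ℓ` there is a valuation subring of the
field of algebraic numbers lying over `ℓ` together with a Frobenius element at it. -/
theorem exists_isFrobeniusAt (ℓ : ℕ) (hℓ : ℓ.Prime) :
    ∃ (A : ValuationSubring (AlgebraicClosure ℚ))
      (σ : AlgebraicClosure ℚ ≃ₐ[ℚ] AlgebraicClosure ℚ),
      A.LiesOverPrime ℓ ∧ A.IsFrobeniusAt σ ℓ := by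
  obtain ⟨Q, σ, hQ, hmem, hstab, hfrob⟩ := exists_frob_zbar ℓ hℓ
  have hval := inLoc_or_inv Q ℓ hℓ hmem
  have hone : (1 : Zbar) ∉ Q := fun h1 => hQ.ne_top ((Ideal.eq_top_iff_one Q).mpr h1)
  refine ⟨locValuationSubring Q hval, σ, ?_, ?_⟩
  · -- lies over `ℓ`
    change (ℓ : AlgebraicClosure ℚ) ∈ (locValuationSubring Q hval).nonunits
    rw [ValuationSubring.mem_nonunits_iff_exists_mem_maximalIdeal]
    have hℓA : (ℓ : AlgebraicClosure ℚ) ∈ locValuationSubring Q hval :=
      ⟨algebraMap ℤ Zbar ℓ, 1, hone, by simp⟩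
    exact ⟨hℓA, mem_maximalIdeal_locValuationSubring Q hval ⟨_, hℓA⟩ 1 (algebraMap ℤ Zbar ℓ) hone
      ((hmem _).mpr dvd_rfl) (by simp)⟩
  · -- Frobenius
    have hσA : ∀ x : AlgebraicClosure ℚ, InLoc Q x → InLoc Q (σ x) := by
      rintro x ⟨b, s, hs, hx⟩
      refine ⟨σ • b, σ • s, fun h => hs ((hstab s).mp h), ?_⟩
      have := congrArg σ hx
      simpa using this
    have hσA' : ∀ x : AlgebraicClosure ℚ, InLoc Q (σ x) → InLoc Q x := by
      rintro x ⟨b, s, hs, hx⟩
      refine ⟨σ⁻¹ • b, σ⁻¹ • s, fun h => hs ?_, ?_⟩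
      · have := (hstab (σ⁻¹ • s)).mpr h
        simpa using this
      · have := congrArg σ.symm hx
        simpa using this
    have hσ : σ ∈ (locValuationSubring Q hval).decompositionSubgroup ℚ := by
      rw [MulAction.mem_stabilizer_iff]
      ext x
      rw [ValuationSubring.mem_pointwise_smul_iff_inv_smul_mem]
      have hx : σ (σ⁻¹ • x) = x := by
        rw [AlgEquiv.smul_def, AlgEquiv.aut_inv, AlgEquiv.apply_symm_apply]
      constructor
      · intro h
        have h' : InLoc Q (σ (σ⁻¹ • x)) := hσA _ h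
        rw [hx] at h'
        exact h'
      · intro h
        apply hσA'
        rw [hx]
        exact h
    refine ⟨hσ, fun x => ?_⟩
    obtain ⟨a, rfl⟩ := IsLocalRing.residue_surjective x
    rw [← IsLocalRing.ResidueField.residue_smul, ← map_pow, ← sub_eq_zero, ← map_sub,
      IsLocalRing.residue_eq_zero_iff]
    obtain ⟨b, s, hs, ha⟩ := a.2
    refine mem_maximalIdeal_locValuationSubring Q hval _ (σ • s * s ^ ℓ)
      ((σ • b - b ^ ℓ) * s ^ ℓ - b ^ ℓ * (σ • s - s ^ ℓ)) ?_ ?_ ?_
    · intro h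
      rcases Ideal.IsPrime.mem_or_mem hQ h with h1 | h1
      · exact hs ((hstab s).mp h1)
      · exact hs (Ideal.IsPrime.mem_of_pow_mem hQ _ h1)
    · exact Q.sub_mem (Q.mul_mem_right _ (hfrob b)) (Q.mul_mem_left _ (hfrob s))
    · have hσa : σ (a : AlgebraicClosure ℚ) * σ (s : AlgebraicClosure ℚ) =
          σ (b : AlgebraicClosure ℚ) := by
        rw [← map_mul, ha]
      have h2 : (a : AlgebraicClosure ℚ) ^ ℓ * (s : AlgebraicClosure ℚ) ^ ℓ =
          (b : AlgebraicClosure ℚ) ^ ℓ := by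
        rw [← mul_pow, ha]
      change (σ (a : AlgebraicClosure ℚ) - (a : AlgebraicClosure ℚ) ^ ℓ) *
          (σ (s : AlgebraicClosure ℚ) * (s : AlgebraicClosure ℚ) ^ ℓ) =
        (σ (b : AlgebraicClosure ℚ) - (b : AlgebraicClosure ℚ) ^ ℓ) * (s : AlgebraicClosure ℚ) ^ ℓ -
          (b : AlgebraicClosure ℚ) ^ ℓ * (σ (s : AlgebraicClosure ℚ) - (s : AlgebraicClosure ℚ) ^ ℓ)
      linear_combination (s : AlgebraicClosure ℚ) ^ ℓ * hσa - σ (s : AlgebraicClosure ℚ) * h2

end Fermat.Agent.S54.FrobExists
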